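/-
S14 / BR, part 1: the cocycle attached to an extension `0 → C → V → V/C → 0` of `𝔽_p[G]`-modules
with `G` acting trivially on the line `C` and through a character `χ` on the line `V/C`.
Pure algebra, generic group `G`.
-/
import Mathlib

set_option autoImplicit false

namespace Fermat.Agent.S14.BR

variable {p : ℕ} [Fact p.Prime]

/-- A `ZMod p`-module with `p` elements is spanned by any nonzero vector. -/
theorem exists_smul_of_card {W : Type*} [AddCommGroup W] [Module (ZMod p) W]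
    (h : Nat.card W = p) (w : W) (hw : w ≠ 0) (x : W) : ∃ t : ZMod p, x = t • w := by
  have hp : p ≠ 0 := (Fact.out : p.Prime).ne_zero
  have : Finite W := Nat.finite_of_card_ne_zero (by rw [h]; exact hp)
  have hinj : Function.Injective (fun t : ZMod p => t • w) := smul_left_injective _ hw
  have hbij : Function.Bijective (fun t : ZMod p => t • w) :=
    (Nat.bijective_iff_injective_and_card _).mpr ⟨hinj, by rw [h, Nat.card_zmod]⟩
  obtain ⟨t, ht⟩ := hbij.2 x
  exact ⟨t, ht.symm⟩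

variable {G : Type*} [Group G]
  {V : Type*} [AddCommGroup V] [Module (ZMod p) V] [DistribMulAction G V]
  [SMulCommClass G (ZMod p) V]

/-- The `V`-valued cocycle `σ ↦ σ v₀ - χ(σ) v₀`. -/
def phi (χ : G →* (ZMod p)ˣ) (v₀ : V) (σ : G) : V := σ • v₀ - (χ σ : ZMod p) • v₀

theorem phi_mul (χ : G →* (ZMod p)ˣ) (C : Submodule (ZMod p) V)
    (hfix : ∀ σ : G, ∀ x ∈ C, σ • x = x)
    (hquot : ∀ σ : G, ∀ x : V, σ • x - (χ σ : ZMod p) • x ∈ C) (v₀ : V) (σ τ : G) :
    phi χ v₀ (σ * τ) = (χ τ : ZMod p) • phi χ v₀ σ + phi χ v₀ τ := by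
  have h1 : σ • phi χ v₀ τ = phi χ v₀ τ := hfix σ _ (hquot τ v₀)
  unfold phi at h1 ⊢
  rw [smul_sub, smul_comm σ (χ τ : ZMod p) v₀] at h1
  rw [mul_smul σ τ v₀, map_mul, Units.val_mul, smul_sub, mul_comm (χ σ : ZMod p),
    mul_smul (χ τ : ZMod p) (χ σ : ZMod p) v₀]
  have h2 : σ • τ • v₀ = τ • v₀ - (χ τ : ZMod p) • v₀ + (χ τ : ZMod p) • σ • v₀ := by
    rw [← h1]; abel
  rw [h2]; abel

/-- **The cocycle package.** -/
theorem exists_cocycle (χ : G →* (ZMod p)ˣ) (C : Submodule (ZMod p) V)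
    (hfix : ∀ σ : G, ∀ x ∈ C, σ • x = x)
    (hquot : ∀ σ : G, ∀ x : V, σ • x - (χ σ : ZMod p) • x ∈ C)
    (hC : Nat.card C = p) (hV : Nat.card V = p ^ 2) :
    ∃ b : G → ZMod p,
      (∀ σ τ : G, b (σ * τ) = (χ τ : ZMod p) * b σ + b τ) ∧
      (∀ σ : G, (∀ v : V, σ • v = v) → χ σ = 1 ∧ b σ = 0) ∧
      (∀ σ : G, χ σ = 1 →
        (∃ C' : Submodule (ZMod p) V, (∀ x ∈ C', σ • x ∈ C') ∧ IsCompl C C') → b σ = 0) ∧
      ((∃ g₀ : G, χ g₀ ≠ 1) → (∀ σ : G, χ σ = 1 → b σ = 0) →
        ∃ C' : Submodule (ZMod p) V, (∀ σ : G, ∀ x ∈ C', σ • x ∈ C') ∧ IsCompl C C') := by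
  classical
  have hp1 : 1 < p := (Fact.out : p.Prime).one_lt
  have hp0 : p ≠ 0 := (Fact.out : p.Prime).ne_zero
  have : Finite V := Nat.finite_of_card_ne_zero (by rw [hV]; positivity)
  -- a generator of `C`
  obtain ⟨c₀, hc₀⟩ : ∃ c : C, c ≠ 0 := by
    by_contra hcon
    push Not at hcon
    have : Subsingleton C := ⟨fun a b => by rw [hcon a, hcon b]⟩
    have : Nat.card C = 1 := Nat.card_of_subsingleton 0
    omega
  have hc₀V : (c₀ : V) ≠ 0 := fun h => hc₀ (Subtype.ext h)
  have hspanC : ∀ x ∈ C, ∃ t : ZMod p, x = t • (c₀ : V) := by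
    intro x hx
    obtain ⟨t, ht⟩ := exists_smul_of_card hC c₀ hc₀ ⟨x, hx⟩
    exact ⟨t, congrArg Subtype.val ht⟩
  -- the quotient has `p` elements
  have hQ : Nat.card (V ⧸ C) = p := by
    have h1 := Submodule.card_eq_card_quotient_mul_card C
    rw [hV, hC, pow_two] at h1
    exact (Nat.eq_of_mul_eq_mul_left (Nat.pos_of_ne_zero hp0) h1).symm
  -- a vector outside `C`
  obtain ⟨v₀, hv₀⟩ : ∃ v : V, v ∉ C := by
    by_contra hcon
    push Not at hcon
    have h1 : C = ⊤ := eq_top_iff.mpr fun x _ => hcon x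
    have h2 : Nat.card C = Nat.card V := by
      rw [h1]; exact Nat.card_congr (Submodule.topEquiv (R := ZMod p) (M := V)).toEquiv
    rw [hC, hV] at h2
    nlinarith
  -- complement criterion
  have hcompl : ∀ w : V, w ∉ C → IsCompl C (Submodule.span (ZMod p) {w}) := by
    intro w hw
    constructor
    · rw [Submodule.disjoint_def]
      intro x hxC hxw
      obtain ⟨t, rfl⟩ := Submodule.mem_span_singleton.mp hxw
      by_cases ht : t = 0
      · rw [ht, zero_smul]
      · exfalso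
        apply hw
        have := C.smul_mem t⁻¹ hxC
        rwa [smul_smul, inv_mul_cancel₀ ht, one_smul] at this
    · rw [codisjoint_iff, eq_top_iff]
      intro x _
      have hw' : (Submodule.Quotient.mk w : V ⧸ C) ≠ 0 := by
        rwa [Ne, Submodule.Quotient.mk_eq_zero]
      obtain ⟨t, ht⟩ := exists_smul_of_card hQ _ hw' (Submodule.Quotient.mk x)
      rw [← Submodule.Quotient.mk_smul, Submodule.Quotient.eq] at ht
      have : x = (x - t • w) + t • w := by abel
      rw [this]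
      exact Submodule.add_mem_sup ht (Submodule.smul_mem _ _ (Submodule.mem_span_singleton_self w))
  -- the scalar cocycle
  have hb : ∀ σ : G, ∃ t : ZMod p, phi χ v₀ σ = t • (c₀ : V) := fun σ => hspanC _ (hquot σ v₀)
  choose b hb using hb
  have hb0 : ∀ σ : G, b σ = 0 ↔ phi χ v₀ σ = 0 := by
    intro σ
    rw [hb σ]
    constructor
    · intro h; rw [h, zero_smul]
    · intro h; exact (smul_eq_zero.mp h).resolve_right hc₀V
  refine ⟨b, ?_, ?_, ?_, ?_⟩
  · intro σ τ
    have h1 := phi_mul χ C hfix hquot v₀ σ τ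
    rw [hb, hb, hb, smul_smul, ← add_smul] at h1
    exact smul_left_injective _ hc₀V h1
  · intro σ hσ
    have h1 : χ σ = 1 := by
      by_contra hne
      have h2 := hquot σ v₀
      rw [hσ v₀] at h2
      have h3 : (1 - (χ σ : ZMod p)) ≠ 0 := by
        intro h
        apply hne
        ext
        rw [Units.val_one]
        exact (sub_eq_zero.mp h).symm
      apply hv₀
      have h4 : v₀ - (χ σ : ZMod p) • v₀ = (1 - (χ σ : ZMod p)) • v₀ := by
        rw [sub_smul, one_smul]
      rw [h4] at h2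
      have := C.smul_mem (1 - (χ σ : ZMod p))⁻¹ h2
      rwa [smul_smul, inv_mul_cancel₀ h3, one_smul] at this
    refine ⟨h1, (hb0 σ).mpr ?_⟩
    unfold phi
    rw [hσ v₀, h1, Units.val_one, one_smul, sub_self]
  · rintro σ hσ ⟨C', hst, hcc⟩
    rw [hb0]
    have htop : v₀ ∈ C ⊔ C' := by rw [hcc.sup_eq_top]; trivial
    obtain ⟨c, hc, w, hw, hcw⟩ := Submodule.mem_sup.mp htop
    have h1 : phi χ v₀ σ = σ • w - w := by
      unfold phi
      rw [hσ, Units.val_one, one_smul, ← hcw, smul_add, hfix σ c hc]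
      abel
    have h2 : phi χ v₀ σ ∈ C' := by rw [h1]; exact C'.sub_mem (hst w hw) hw
    exact (Submodule.disjoint_def.mp hcc.disjoint) _ (hquot σ v₀) h2
  · rintro ⟨g₀, hg₀⟩ hH
    have hd : ((χ g₀ : ZMod p) - 1) ≠ 0 := by
      intro h
      apply hg₀
      ext
      rw [Units.val_one]
      exact sub_eq_zero.mp h
    set u : V := ((χ g₀ : ZMod p) - 1)⁻¹ • phi χ v₀ g₀ with hu
    have huC : u ∈ C := C.smul_mem _ (hquot g₀ v₀)
    set w : V := v₀ + u with hw
    have hwC : w ∉ C := by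
      intro h
      apply hv₀
      have := C.sub_mem h huC
      simpa [hw] using this
    have hphiw : ∀ σ : G, phi χ w σ = phi χ v₀ σ - ((χ σ : ZMod p) - 1) • u := by
      intro σ
      unfold phi
      rw [hw, smul_add, smul_add, hfix σ u huC, sub_smul, one_smul]
      abel
    have hw0 : phi χ w g₀ = 0 := by
      rw [hphiw, hu, smul_smul, mul_inv_cancel₀ hd, one_smul, sub_self]
    have hwH : ∀ σ : G, χ σ = 1 → phi χ w σ = 0 := by
      intro σ hσ
      rw [hphiw, hσ, Units.val_one, sub_self, zero_smul, sub_zero]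
      exact (hb0 σ).mp (hH σ hσ)
    have hall : ∀ σ : G, phi χ w σ = 0 := by
      intro σ
      set h : G := σ * g₀ * σ⁻¹ * g₀⁻¹ with hh
      have hχh : χ h = 1 := by
        rw [hh]
        simp only [map_mul, map_inv]
        rw [mul_comm (χ σ) (χ g₀)]
        simp
      have e1 : σ * g₀ = h * (g₀ * σ) := by rw [hh]; group
      have e2 := phi_mul χ C hfix hquot w σ g₀
      have e3 := phi_mul χ C hfix hquot w h (g₀ * σ)
      have e4 := phi_mul χ C hfix hquot w g₀ σ
      rw [← e1, e2, e4, hw0, hwH h hχh, smul_zero, smul_zero, add_zero, zero_add, zero_add] at e3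
      have e5 : ((χ g₀ : ZMod p) - 1) • phi χ w σ = 0 := by
        rw [sub_smul, one_smul, e3, sub_self]
      exact (smul_eq_zero.mp e5).resolve_left hd
    refine ⟨Submodule.span (ZMod p) {w}, ?_, hcompl w hwC⟩
    intro σ x hx
    obtain ⟨t, rfl⟩ := Submodule.mem_span_singleton.mp hx
    have h1 : σ • w = (χ σ : ZMod p) • w := sub_eq_zero.mp (hall σ)
    rw [smul_comm, h1]
    exact Submodule.smul_mem _ _ (Submodule.smul_mem _ _ (Submodule.mem_span_singleton_self w))

end Fermat.Agent.S14.BR
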