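/-
S14 / BR, part 2: from a cocycle `b : G_ℚ → 𝔽_p` (twisted by the cyclotomic character) with open
kernel, non trivial on `G_{ℚ(ζ_p)}`, to a Kummer generator `A` with `s A = ζ ^ b(s) A`.
-/
import Mathlib
import Fermat.Prelude.Def_ExtCitation_KummerBridge
import Fermat.Agent.S54.Frobenius

set_option autoImplicit false

namespace Fermat.Agent.S14.BR

open Fermat.Agent.S54 ExtCitation

attribute [local instance] isAlgClosure_Qbar

local notation "Qbar" => AlgebraicClosure ℚ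

variable {p : ℕ} [Fact p.Prime]

/-- The defining property of the mod `p` cyclotomic character. -/
theorem cycloChar_spec (σ : GQ) {ζ : Qbar} (hζ : ζ ^ p = 1) :
    σ ζ = ζ ^ ((cycloChar p σ : ZMod p)).val := by
  have : NeZero p := ⟨(Fact.out : p.Prime).ne_zero⟩
  have hζ0 : ζ ≠ 0 := by
    rintro rfl
    rw [zero_pow (NeZero.ne p)] at hζ
    exact zero_ne_one hζ
  have hmem : Units.mk0 ζ hζ0 ∈ rootsOfUnity p Qbar := by
    rw [mem_rootsOfUnity]
    ext
    simpa using hζ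
  have := modularCyclotomicCharacter.spec (L := Qbar) (card_rootsOfUnity_eq_self p)
    (σ : Qbar ≃+* Qbar) hmem
  exact this

theorem apply_eq_of_cycloChar_eq_one {σ : GQ} (hσ : cycloChar p σ = 1) {ζ : Qbar}
    (hζ : ζ ^ p = 1) : σ ζ = ζ := by
  rw [cycloChar_spec σ hζ, hσ, Units.val_one, ZMod.val_one, pow_one]

theorem cycloChar_eq_of_apply {σ : GQ} {ζ : Qbar} (hζ : IsPrimitiveRoot ζ p) {d : (ZMod p)ˣ}
    (h : σ ζ = ζ ^ (d : ZMod p).val) : cycloChar p σ = d := by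
  have : NeZero p := ⟨(Fact.out : p.Prime).ne_zero⟩
  rw [cycloChar_spec σ hζ.pow_eq_one] at h
  ext
  exact ZMod.val_injective _ (hζ.pow_inj (ZMod.val_lt _) (ZMod.val_lt _) h)

/-- Powers of a `p`-th root of unity only depend on the exponent modulo `p`. -/
theorem pow_val_natCast {ζ : Qbar} (hζ : ζ ^ p = 1) (n : ℕ) : ζ ^ ((n : ZMod p)).val = ζ ^ n := by
  rw [ZMod.val_natCast, ← pow_mod_orderOf ζ n, ← pow_mod_orderOf ζ (n % p)]
  congr 1
  exact Nat.mod_mod_of_dvd _ (orderOf_dvd_of_pow_eq_one hζ)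

section cocycle

variable (b : GQ → ZMod p)

/-- The subgroup `{χ = 1, b = 0}`. -/
def kerSub (hb : ∀ σ τ : GQ, b (σ * τ) = (cycloChar p τ : ZMod p) * b σ + b τ) : Subgroup GQ where
  carrier := {σ | cycloChar p σ = 1 ∧ b σ = 0}
  one_mem' := by
    refine ⟨map_one _, ?_⟩
    have := hb 1 1
    simpa using this
  mul_mem' := by
    rintro σ τ ⟨h1, h2⟩ ⟨h3, h4⟩
    refine ⟨by rw [map_mul, h1, h3, one_mul], ?_⟩
    rw [hb, h2, h4, mul_zero, add_zero]
  inv_mem' := by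
    rintro σ ⟨h1, h2⟩
    refine ⟨by rw [map_inv, h1, inv_one], ?_⟩
    have h0 : b 1 = 0 := by
      have := hb 1 1
      simpa using this
    have := hb σ σ⁻¹
    rw [mul_inv_cancel, h0, h2, mul_zero, zero_add] at this
    exact this.symm

variable {b}
variable (hb : ∀ σ τ : GQ, b (σ * τ) = (cycloChar p τ : ZMod p) * b σ + b τ)

theorem mem_kerSub {σ : GQ} : σ ∈ kerSub b hb ↔ cycloChar p σ = 1 ∧ b σ = 0 := Iff.rfl

include hb in
theorem b_one : b 1 = 0 := by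
  have := hb 1 1
  simpa using this

include hb in
theorem b_mul_of_right {σ τ : GQ} (hτ : cycloChar p τ = 1) : b (σ * τ) = b σ + b τ := by
  rw [hb, hτ, Units.val_one, one_mul]

include hb in
theorem b_inv {σ : GQ} (hσ : cycloChar p σ = 1) : b σ⁻¹ = - b σ := by
  have h := b_mul_of_right hb (σ := σ) (τ := σ⁻¹) (by rw [map_inv, hσ, inv_one])
  rw [mul_inv_cancel, b_one hb] at h
  exact (neg_eq_of_add_eq_zero_right h.symm).symm

include hb in
theorem b_pow {σ : GQ} (hσ : cycloChar p σ = 1) (n : ℕ) : b (σ ^ n) = n * b σ := by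
  induction n with
  | zero => simp [b_one hb]
  | succ n ih => rw [pow_succ, b_mul_of_right hb hσ, ih]; push_cast; ring

include hb in
/-- conjugation formula -/
theorem b_conj (g s : GQ) (hs : cycloChar p s = 1) :
    b (g⁻¹ * s * g) = (cycloChar p g : ZMod p) * b s := by
  have h1 : cycloChar p (g⁻¹ * s * g) = 1 := by
    rw [map_mul, map_mul, hs, mul_one, map_inv, inv_mul_cancel]
  have h2 : b (g * (g⁻¹ * s * g)) = b g + b (g⁻¹ * s * g) := b_mul_of_right hb h1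
  have h3 : g * (g⁻¹ * s * g) = s * g := by group
  rw [h3, hb] at h2
  exact (add_left_cancel (a := b g) (by rw [← h2, add_comm])).symm

instance kerSub_normal : (kerSub b hb).Normal := by
  constructor
  rintro s ⟨h1, h2⟩ g
  have h := b_conj hb g⁻¹ s h1
  rw [inv_inv, h2, mul_zero] at h
  exact ⟨by rw [map_mul, map_mul, h1, mul_one, map_inv, mul_inv_cancel], h⟩

theorem kerSub_isOpen (hopen : IsOpen {σ : GQ | cycloChar p σ = 1 ∧ b σ = 0}) :
    IsOpen (kerSub b hb : Set GQ) := hopen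

theorem kerSub_isClosed (hopen : IsOpen {σ : GQ | cycloChar p σ = 1 ∧ b σ = 0}) :
    IsClosed (kerSub b hb : Set GQ) :=
  (kerSub b hb).isClosed_of_isOpen (kerSub_isOpen hb hopen)

/-- shifting a sum of a periodic function -/
theorem sum_range_shift {M : Type*} [AddCommMonoid M] [IsCancelAdd M] (h : ℕ → M) (n : ℕ)
    (hper : ∀ i, h (i + n) = h i) (k : ℕ) :
    ∑ i ∈ Finset.range n, h (i + k) = ∑ i ∈ Finset.range n, h i := by
  induction k with
  | zero => simp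
  | succ k ih =>
    rw [← ih]
    have h1 := Finset.sum_range_succ (fun i => h (i + k)) n
    have h2 := Finset.sum_range_succ' (fun i => h (i + k)) n
    rw [h1] at h2
    simp only [zero_add] at h2
    rw [add_comm n k, hper k] at h2
    have h3 := add_right_cancel h2
    rw [h3]
    refine Finset.sum_congr rfl fun i _ => ?_
    congr 1
    ring

include hb in
/-- **Kummer generator.** -/
theorem exists_kummer (hopen : IsOpen {σ : GQ | cycloChar p σ = 1 ∧ b σ = 0})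
    {ζ : Qbar} (hζ : IsPrimitiveRoot ζ p) (s₀ : GQ) (hs₀ : cycloChar p s₀ = 1) (hbs₀ : b s₀ ≠ 0) :
    ∃ A : Qbar, A ≠ 0 ∧ ∀ s : GQ, cycloChar p s = 1 → s A = ζ ^ (b s).val * A := by
  classical
  have : NeZero p := ⟨(Fact.out : p.Prime).ne_zero⟩
  have hζp : ζ ^ p = 1 := hζ.pow_eq_one
  have hζ0 : ζ ≠ 0 := hζ.ne_zero (NeZero.ne p)
  -- normalise `s₀`
  obtain ⟨s₁, hs₁, hbs₁⟩ : ∃ s₁ : GQ, cycloChar p s₁ = 1 ∧ b s₁ = 1 := by
    refine ⟨s₀ ^ ((b s₀)⁻¹).val, by rw [map_pow, hs₀, one_pow], ?_⟩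
    rw [b_pow hb hs₀, ZMod.natCast_val, ZMod.cast_id', id, inv_mul_cancel₀ hbs₀]
  have hχpow : ∀ n : ℕ, cycloChar p (s₁ ^ n) = 1 := fun n => by rw [map_pow, hs₁, one_pow]
  have hbpow : ∀ n : ℕ, b (s₁ ^ n) = n := fun n => by rw [b_pow hb hs₁, hbs₁, mul_one]
  set H' := kerSub b hb with hH'
  let F : IntermediateField ℚ Qbar := IntermediateField.fixedField H'
  have hFH : F.fixingSubgroup = H' :=
    InfiniteGalois.fixingSubgroup_fixedField (⟨H', kerSub_isClosed hb hopen⟩ : ClosedSubgroup GQ)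
  have hfix : ∀ θ : F, ∀ h ∈ H', h (θ : Qbar) = θ := by
    intro θ h hh
    have := θ.2
    rw [IntermediateField.mem_fixedField_iff] at this
    exact this h hh
  -- the relevant monoid homs
  let f : Fin p → (F →* Qbar) := fun i =>
    ((s₁ ^ (i : ℕ) : GQ) : Qbar →* Qbar).comp ((algebraMap F Qbar : F →+* Qbar) : F →* Qbar)
  have hf : ∀ (i : Fin p) (θ : F), f i θ = (s₁ ^ (i : ℕ) : GQ) (θ : Qbar) := fun _ _ => rfl
  have hinj : Function.Injective f := by
    intro i j hij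
    have h1 : (s₁ ^ (j : ℕ))⁻¹ * s₁ ^ (i : ℕ) ∈ F.fixingSubgroup := by
      rw [IntermediateField.mem_fixingSubgroup_iff]
      intro x hx
      have h2 := congrArg (fun g => g (⟨x, hx⟩ : F)) hij
      simp only [hf] at h2
      show (s₁ ^ (j : ℕ))⁻¹ ((s₁ ^ (i : ℕ)) x) = x
      rw [h2]
      exact AlgEquiv.symm_apply_apply _ _
    rw [hFH] at h1
    have h3 := h1.2
    rw [b_mul_of_right hb (hχpow _), b_inv hb (hχpow _), hbpow, hbpow] at h3
    have h4 : ((i : ℕ) : ZMod p) = ((j : ℕ) : ZMod p) := by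
      have := neg_add_eq_zero.mp h3
      exact this.symm
    have h5 := congrArg ZMod.val h4
    rw [ZMod.val_natCast, ZMod.val_natCast, Nat.mod_eq_of_lt i.2, Nat.mod_eq_of_lt j.2] at h5
    exact Fin.ext h5
  have hli : LinearIndependent Qbar (fun i : Fin p => (f i : F → Qbar)) :=
    (linearIndependent_monoidHom F Qbar).comp f hinj
  obtain ⟨θ, hθ⟩ : ∃ θ : F, ∑ i : Fin p, (ζ⁻¹) ^ (i : ℕ) * f i θ ≠ 0 := by
    by_contra hcon
    push Not at hcon
    have h1 : ∑ i : Fin p, ((ζ⁻¹) ^ (i : ℕ)) • (f i : F → Qbar) = 0 := by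
      funext θ
      rw [Finset.sum_apply]
      simpa using hcon θ
    have h2 := Fintype.linearIndependent_iff.mp hli _ h1 ⟨0, Nat.pos_of_ne_zero (NeZero.ne p)⟩
    simp at h2
  let hh : ℕ → Qbar := fun n => (ζ⁻¹) ^ n * (s₁ ^ n : GQ) (θ : Qbar)
  have hsum : ∑ i : Fin p, (ζ⁻¹) ^ (i : ℕ) * f i θ = ∑ i ∈ Finset.range p, hh i :=
    Fin.sum_univ_eq_sum_range hh p
  rw [hsum] at hθ
  have hper : ∀ i, hh (i + p) = hh i := by
    intro i
    have h1 : s₁ ^ p ∈ H' := ⟨hχpow p, by rw [hbpow, ZMod.natCast_self]⟩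
    show (ζ⁻¹) ^ (i + p) * (s₁ ^ (i + p) : GQ) (θ : Qbar) = (ζ⁻¹) ^ i * (s₁ ^ i : GQ) (θ : Qbar)
    rw [pow_add, inv_pow ζ p, hζp, inv_one, mul_one, pow_add]
    show _ * (s₁ ^ i) ((s₁ ^ p) (θ : Qbar)) = _
    rw [hfix θ _ h1]
  refine ⟨_, hθ, ?_⟩
  intro s hs
  set k := (b s).val with hk
  have hkb : (k : ZMod p) = b s := by rw [hk, ZMod.natCast_val, ZMod.cast_id', id]
  have hsζ : s ζ⁻¹ = ζ⁻¹ := by rw [map_inv₀, apply_eq_of_cycloChar_eq_one hs hζp]
  have hterm : ∀ i : ℕ, s (hh i) = ζ ^ k * hh (i + k) := by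
    intro i
    have h1 : (s₁ ^ (i + k))⁻¹ * (s * s₁ ^ i) ∈ H' := by
      refine ⟨by rw [map_mul, map_mul, map_inv, hχpow, hχpow, hs]; simp, ?_⟩
      rw [b_mul_of_right hb (by rw [map_mul, hs, hχpow, one_mul]), b_inv hb (hχpow _),
        b_mul_of_right hb (hχpow _), hbpow, hbpow, ← hkb]
      push_cast
      ring
    have h2 : s ((s₁ ^ i : GQ) (θ : Qbar)) = (s₁ ^ (i + k) : GQ) (θ : Qbar) := by
      have h3 := hfix θ _ h1
      have h4 : ((s₁ ^ (i + k))⁻¹ * (s * s₁ ^ i) : GQ) (θ : Qbar) =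
          (s₁ ^ (i + k) : GQ)⁻¹ (s ((s₁ ^ i : GQ) (θ : Qbar))) := rfl
      rw [h4] at h3
      have h5 : (s₁ ^ (i + k) : GQ) ((s₁ ^ (i + k) : GQ)⁻¹ (s ((s₁ ^ i : GQ) (θ : Qbar)))) =
          (s₁ ^ (i + k) : GQ) (θ : Qbar) := congrArg (fun x => (s₁ ^ (i + k) : GQ) x) h3
      rw [← h5]
      exact (AlgEquiv.apply_symm_apply (s₁ ^ (i + k) : GQ) _).symm
    show s ((ζ⁻¹) ^ i * (s₁ ^ i : GQ) (θ : Qbar)) =
      ζ ^ k * ((ζ⁻¹) ^ (i + k) * (s₁ ^ (i + k) : GQ) (θ : Qbar))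
    rw [map_mul, map_pow, hsζ, h2, pow_add (ζ⁻¹) i k, inv_pow ζ k]
    field_simp
  rw [map_sum, Finset.sum_congr rfl (fun i _ => hterm i), ← Finset.mul_sum,
    sum_range_shift hh p hper k]

end cocycle

end Fermat.Agent.S14.BR
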