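/-
S14 / BR, part 3: triviality of all inertia groups of `M/K` (number fields inside `Qbar`) from
information on the inertia groups of valuation subrings of `Qbar`.
-/
import Mathlib
import Fermat.Agent.S14.Defs
import Fermat.Agent.S13.Minkowski

set_option autoImplicit false

open scoped Pointwise

namespace Fermat.Agent.S14.BR

open Fermat.Agent.S54 Fermat.Agent.S13 NumberField

attribute [local instance] isAlgClosure_Qbar zbarAction zbarTop zbar_discrete zbar_continuousSMul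
  zbar_isInvariant

local notation "Qbar" => AlgebraicClosure ℚ

/-- the inclusion of the integers of a number field inside `Qbar` in all algebraic integers -/
noncomputable def iotaZ (M : IntermediateField ℚ Qbar) [NumberField M] : 𝓞 M →+* Zbar where
  toFun := fun x => ⟨((x : M) : Qbar), by
    have h1 : IsIntegral ℤ (x : M) := NumberField.RingOfIntegers.isIntegral_coe x
    exact h1.map (IsScalarTower.toAlgHom ℤ M Qbar)⟩
  map_one' := by ext; simp
  map_mul' := fun x y => by ext; simp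
  map_zero' := by ext; simp
  map_add' := fun x y => by ext; simp

theorem coe_iotaZ (M : IntermediateField ℚ Qbar) [NumberField M] (x : 𝓞 M) :
    ((iotaZ M x : Zbar) : Qbar) = ((x : M) : Qbar) := rfl

theorem iotaZ_injective (M : IntermediateField ℚ Qbar) [NumberField M] :
    Function.Injective (iotaZ M) := by
  intro x y h
  have h1 := congrArg (fun z : Zbar => (z : Qbar)) h
  simp only [coe_iotaZ] at h1
  exact NumberField.RingOfIntegers.ext (Subtype.ext h1)

/-- Every nonzero prime of `𝓞 M` is the trace of the centre of a valuation subring of `Qbar` lying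
over a rational prime. -/
theorem exists_valuationSubring_over (M : IntermediateField ℚ Qbar) [NumberField M]
    (𝔓 : Ideal (𝓞 M)) (h𝔓 : 𝔓.IsPrime) (h0 : 𝔓 ≠ ⊥) :
    ∃ (A : ValuationSubring Qbar) (ℓ : ℕ), ℓ.Prime ∧ A.LiesOverPrime ℓ ∧
      (zbarCenter A).comap (iotaZ M) = 𝔓 := by
  have hmax : 𝔓.IsMaximal := h𝔓.isMaximal h0
  letI : Algebra (𝓞 M) Zbar := (iotaZ M).toAlgebra
  have hint : Algebra.IsIntegral (𝓞 M) Zbar := by
    refine ⟨fun z => ?_⟩
    have h1 : IsIntegral ℤ z := by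
      have h2 : IsIntegral ℤ (z : Qbar) := z.2
      exact (isIntegral_algebraMap_iff (A := Zbar) (B := Qbar)
        (Subtype.val_injective)).mp h2
    exact h1.tower_top
  have hfaith : FaithfulSMul (𝓞 M) Zbar :=
    (faithfulSMul_iff_algebraMap_injective _ _).mpr (iotaZ_injective M)
  obtain ⟨Q, hQmax, hQ⟩ := Ideal.exists_maximal_ideal_liesOver_of_isIntegral (S := Zbar) 𝔓
  obtain ⟨A, -, hA⟩ :=
    Ideal.image_subset_nonunits_valuationSubring (A := Zbar.toSubring) Q hQmax.ne_top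
  have hQle : Q ≤ zbarCenter A := by
    intro z hz
    rw [mem_zbarCenter]
    exact hA ⟨z, hz, rfl⟩
  have hQeq : Q = zbarCenter A :=
    hQmax.eq_of_le (Ideal.IsPrime.ne_top inferInstance) hQle
  have hcomap : (zbarCenter A).comap (iotaZ M) = 𝔓 := by
    rw [← hQeq]
    exact hQ.over.symm
  -- the rational prime
  have hI : (𝔓.comap (Int.castRingHom (𝓞 M))).IsPrime := Ideal.comap_isPrime _ _
  have hI0 : 𝔓.comap (Int.castRingHom (𝓞 M)) ≠ ⊥ := by
    intro hbot
    have h1 : ((Ideal.absNorm 𝔓 : ℕ) : ℤ) ∈ 𝔓.comap (Int.castRingHom (𝓞 M)) := by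
      rw [Ideal.mem_comap]
      have := Ideal.absNorm_mem 𝔓
      simpa using this
    rw [hbot, Ideal.mem_bot] at h1
    have h2 : Ideal.absNorm 𝔓 = 0 := by exact_mod_cast h1
    exact h0 (Ideal.absNorm_eq_zero_iff.mp h2)
  obtain ⟨x, hx, hxp⟩ := hI.exists_mem_prime_of_ne_bot hI0
  refine ⟨A, x.natAbs, Int.prime_iff_natAbs_prime.mp hxp, ?_, hcomap⟩
  have h3 : ((x.natAbs : ℤ) : 𝓞 M) ∈ 𝔓 := by
    rcases Int.natAbs_eq x with h | h
    · rw [← h]; exact hx
    · have : ((x.natAbs : ℤ) : 𝓞 M) = -((x : ℤ) : 𝓞 M) := by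
        rw [← Int.cast_neg]; congr 1; omega
      rw [this]
      exact 𝔓.neg_mem hx
  rw [← hcomap, Ideal.mem_comap, mem_zbarCenter] at h3
  show ((x.natAbs : ℕ) : Qbar) ∈ A.nonunits
  simpa [coe_iotaZ] using h3

/-- **Inertia criterion.** -/
theorem inertiaTrivial_of (K M : IntermediateField ℚ Qbar) (hKM : K ≤ M)
    [NumberField K] [NumberField M] (H' : Subgroup GQ) [H'.Normal]
    (hcl : IsClosed (H' : Set GQ)) (hM : M = IntermediateField.fixedField H')
    (hI : ∀ ℓ : ℕ, ℓ.Prime → ∀ A : ValuationSubring Qbar, A.LiesOverPrime ℓ →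
      ∀ σ ∈ A.inertiaSubgroupIn ℚ, (∀ x ∈ K, σ x = x) → σ ∈ H') :
    @InertiaTrivial K M _ _ _ _ (IntermediateField.inclusion hKM).toRingHom.toAlgebra := by
  letI : Algebra K M := (IntermediateField.inclusion hKM).toRingHom.toAlgebra
  intro 𝔓 h𝔓 h𝔓0 σ hσ
  have hMH : M.fixingSubgroup = H' := by
    rw [hM]
    exact InfiniteGalois.fixingSubgroup_fixedField (⟨H', hcl⟩ : ClosedSubgroup GQ)
  have hgal : IsGalois ℚ M :=
    (InfiniteGalois.normal_iff_isGalois M).mp (by rw [hMH]; infer_instance)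
  have hfixM : ∀ h ∈ H', ∀ x ∈ M, h x = x := by
    intro h hh x hx
    rw [hM, IntermediateField.mem_fixedField_iff] at hx
    exact hx h hh
  let τ : M ≃ₐ[ℚ] M := AlgEquiv.ofRingEquiv (f := σ.toRingEquiv) (fun r => by
    show σ (algebraMap ℚ M r) = algebraMap ℚ M r
    rw [eq_ratCast, map_ratCast])
  have hτ : ∀ x : M, τ x = σ x := fun _ => rfl
  obtain ⟨σ₀, hσ₀⟩ := AlgEquiv.restrictNormalHom_surjective (F := ℚ) (K₁ := M) Qbar τ
  have hσ₀M : ∀ x : M, σ₀ (x : Qbar) = ((σ x : M) : Qbar) := by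
    intro x
    rw [← hτ, ← hσ₀]
    exact (AlgEquiv.restrictNormal_commutes σ₀ M x).symm
  obtain ⟨A, ℓ, hℓ, hA, hcomap⟩ := exists_valuationSubring_over M 𝔓 h𝔓 h𝔓0
  have hσ' : ∀ x : 𝓞 M, σ • x - x ∈ 𝔓 := hσ
  have h0 : ∀ a : Zbar, (∀ h ∈ H', h • a = a) → σ₀ • a - a ∈ zbarCenter A := by
    intro a ha
    have haM : (a : Qbar) ∈ M := by
      rw [hM, IntermediateField.mem_fixedField_iff]
      intro h hh
      exact congrArg Subtype.val (ha h hh)
    have hint : IsIntegral ℤ (⟨(a : Qbar), haM⟩ : M) := by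
      have h1 : IsIntegral ℤ (algebraMap M Qbar ⟨(a : Qbar), haM⟩) := a.2
      exact (isIntegral_algebraMap_iff (algebraMap M Qbar).injective).mp h1
    let x : 𝓞 M := ⟨⟨(a : Qbar), haM⟩, hint⟩
    have hx : iotaZ M x = a := rfl
    have h2 : iotaZ M (σ • x - x) ∈ zbarCenter A := by
      rw [← Ideal.mem_comap, hcomap]
      exact hσ' x
    have h3 : iotaZ M (σ • x - x) = σ₀ • a - a := by
      apply Subtype.ext
      rw [map_sub, hx]
      show ((iotaZ M (σ • x) : Zbar) : Qbar) - (a : Qbar) = σ₀ (a : Qbar) - (a : Qbar)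
      rw [coe_iotaZ]
      have h4 : ((σ • x : 𝓞 M) : M) = σ (x : M) := rfl
      rw [h4, ← hσ₀M]
      rfl
    rwa [h3] at h2
  obtain ⟨h, hh, hQ, hb⟩ := Minkowski.exists_lift H' hcl (zbarCenter A) σ₀ h0
  have hin : h * σ₀ ∈ A.inertiaSubgroupIn ℚ := Minkowski.mem_inertia A (h * σ₀) hQ hb
  have hK : ∀ x ∈ K, (h * σ₀) x = x := by
    intro x hx
    show h (σ₀ x) = x
    have h1 : σ₀ x = x := by
      have h2 := hσ₀M ⟨x, hKM hx⟩
      have h3 : σ (⟨x, hKM hx⟩ : M) = ⟨x, hKM hx⟩ := σ.commutes (⟨x, hx⟩ : K)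
      rw [h3] at h2
      exact h2
    rw [h1]
    exact hfixM h hh x (hKM hx)
  have hmem : h * σ₀ ∈ H' := hI ℓ hℓ A hA _ hin hK
  have hσ₀H : σ₀ ∈ H' := by
    have := H'.mul_mem (H'.inv_mem hh) hmem
    simpa using this
  ext x
  have h5 := hσ₀M x
  rw [hfixM σ₀ hσ₀H x x.2] at h5
  exact h5.symm

end Fermat.Agent.S14.BR
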